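import Mathlib
import Fermat.Agent.S05.H75.KerRed

/-!
# E-P, step K1 (core): torsion in the kernel of reduction is far from the origin

`K` a valued field, `W` a Weierstrass curve with integral `b`-invariants and `b₂ = 4 β` with `β`
integral (automatic when `2` is a unit).  With `t = 1/x`:

* `pt_add_sub_cube`: the parallelogram law for `t` modulo `c ^ 3`
  (`t(P+Q) + t(P-Q) ≡ 2 t(P) + 2 t(Q) + b₂ t(P) t(Q)`);
* `pt_nsmul_cube`: `t (j • P) ≡ j² t + β c_j t²` modulo `|t| ^ 3`, `c_j = j² (j² - 1) / 3`;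
* `val_natCast_le_val_pt`: if `n • P = 0`, `P ≠ 0` in the kernel of reduction and `n ∣ c_n`
  (e.g. `n` an odd prime), then `|n| ≤ |t(P)|`.
-/

set_option autoImplicit false
set_option linter.unusedSectionVars false

namespace Fermat.Agent.EP

open WeierstrassCurve S05H65 S05H75

/-- the integers `c_j = j² (j² - 1) / 3` -/
def cseq : ℕ → ℤ
  | 0 => 0
  | 1 => 0
  | (j + 2) => 2 * cseq (j + 1) + 4 * ((j : ℤ) + 1) ^ 2 - cseq j

lemma cseq_add_two (j : ℕ) :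
    cseq (j + 2) = 2 * cseq (j + 1) + 4 * ((j : ℤ) + 1) ^ 2 - cseq j := by
  rw [cseq]

lemma three_mul_cseq (j : ℕ) :
    3 * cseq j = (j : ℤ) ^ 2 * ((j : ℤ) ^ 2 - 1) ∧
      3 * cseq (j + 1) = ((j : ℤ) + 1) ^ 2 * (((j : ℤ) + 1) ^ 2 - 1) := by
  induction j with
  | zero => simp [cseq]
  | succ j ih =>
    obtain ⟨h0, h1⟩ := ih
    refine ⟨by push_cast; exact h1, ?_⟩
    rw [cseq_add_two]
    push_cast
    linear_combination 2 * h1 - h0

lemma dvd_cseq_of_prime {p : ℕ} (hp : p.Prime) (hp2 : p ≠ 2) : (p : ℤ) ∣ cseq p := by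
  by_cases h3 : p = 3
  · subst h3
    refine ⟨8, ?_⟩
    simp [cseq]
  · have h := (three_mul_cseq p).1
    have hdvd : (p : ℤ) ∣ 3 * cseq p := by
      rw [h]
      exact Dvd.dvd.mul_right (dvd_pow_self _ (by norm_num)) _
    have hpi : Prime (p : ℤ) := Nat.prime_iff_prime_int.mp hp
    rcases hpi.dvd_or_dvd hdvd with h' | h'
    · exfalso
      have : p ∣ 3 := by exact_mod_cast h'
      have := (Nat.prime_dvd_prime_iff_eq hp Nat.prime_three).mp this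
      exact h3 this
    · exact h'

section Val

variable {K : Type*} [Field K] [DecidableEq K] {Γ₀ : Type*} [LinearOrderedCommGroupWithZero Γ₀]
  (v : Valuation K Γ₀) {W : WeierstrassCurve.Affine K}

omit [DecidableEq K] in
lemma val_intCast_le (n : ℤ) : v (n : K) ≤ 1 := by
  rcases Int.eq_nat_or_neg n with ⟨m, rfl | rfl⟩
  · simpa using val_natCast_le v m
  · simpa using val_natCast_le v m

omit v in
lemma cube_le_of_le_one {c : Γ₀} (hc : c ≤ 1) : c ^ 3 ≤ c ^ 2 := by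
  calc c ^ 3 = c ^ 2 * c := pow_succ c 2
    _ ≤ c ^ 2 * 1 := mul_le_mul' le_rfl hc
    _ = c ^ 2 := mul_one _

section Core

variable (hb₂ : v W.b₂ ≤ 1) (hb₄ : v W.b₄ ≤ 1) (hb₆ : v W.b₆ ≤ 1) (hb₈ : v W.b₈ ≤ 1)
include hb₂ hb₄ hb₆ hb₈

omit [DecidableEq K] in
lemma val_SPoly_sub_cube {c : Γ₀} (hc : c < 1) {t₁ t₂ : K} (h₁ : v t₁ ≤ c) (h₂ : v t₂ ≤ c) :
    v (SPoly W t₁ t₂ - (2 * (t₁ + t₂) + W.b₂ * (t₁ * t₂)) * MPoly W t₁ t₂) ≤ c ^ 3 := by
  have hc1 : c ≤ 1 := hc.le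
  have h1' : v t₁ ≤ 1 := h₁.trans hc1
  have h2' : v t₂ ≤ 1 := h₂.trans hc1
  have h12 : v (t₁ * t₂) ≤ c ^ 2 := by
    rw [pow_two]; exact val_mul_le_mul v h₁ h₂
  have h12' : v (t₁ * t₂) ≤ 1 := by
    rw [map_mul]
    calc v t₁ * v t₂ ≤ 1 * 1 := mul_le_mul' h1' h2'
      _ = 1 := one_mul 1
  have hsum : v (t₁ + t₂) ≤ c := v.map_add_le h₁ h₂
  have hsum1 : v (t₁ + t₂) ≤ 1 := hsum.trans hc1
  have h3 : v ((t₁ + t₂) * (t₁ * t₂)) ≤ c ^ 3 := by
    have := val_mul_le_mul v hsum h12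
    calc v ((t₁ + t₂) * (t₁ * t₂)) ≤ c * c ^ 2 := this
      _ = c ^ 3 := by rw [← pow_succ']
  have h4 : v ((t₁ * t₂) * (t₁ * t₂)) ≤ c ^ 3 := by
    have := val_mul_le_mul v h12 h12
    calc v ((t₁ * t₂) * (t₁ * t₂)) ≤ c ^ 2 * c ^ 2 := this
      _ = c ^ 3 * c := by rw [← pow_add, ← pow_succ]
      _ ≤ c ^ 3 * 1 := mul_le_mul' le_rfl hc1
      _ = c ^ 3 := mul_one _
  have h2 := val_two_le v
  have e : SPoly W t₁ t₂ - (2 * (t₁ + t₂) + W.b₂ * (t₁ * t₂)) * MPoly W t₁ t₂ =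
      W.b₄ * ((t₁ + t₂) * (t₁ * t₂)) + W.b₆ * ((t₁ * t₂) * (t₁ * t₂))
      + (2 * (t₁ + t₂) + W.b₂ * (t₁ * t₂)) * (W.b₄ * (t₁ * t₂)
        + W.b₆ * ((t₁ + t₂) * (t₁ * t₂)) + W.b₈ * ((t₁ * t₂) * (t₁ * t₂))) := by
    simp only [SPoly, MPoly]; ring
  rw [e]
  have hA : v (2 * (t₁ + t₂) + W.b₂ * (t₁ * t₂)) ≤ c := by
    refine v.map_add_le (val_le_mul v h2 hsum) (val_le_mul v hb₂ ?_)
    exact h12.trans (sq_le_self_of_le_one hc1)
  have hB : v (W.b₄ * (t₁ * t₂) + W.b₆ * ((t₁ + t₂) * (t₁ * t₂))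
      + W.b₈ * ((t₁ * t₂) * (t₁ * t₂))) ≤ c ^ 2 := by
    refine v.map_add_le (v.map_add_le ?_ ?_) ?_
    · exact val_le_mul v hb₄ h12
    · exact val_le_mul v hb₆ (val_le_mul v hsum1 h12)
    · exact val_le_mul v hb₈ (val_le_mul v h12' h12)
  refine v.map_add_le (v.map_add_le ?_ ?_) ?_
  · exact val_le_mul v hb₄ h3
  · exact val_le_mul v hb₆ h4
  · calc v ((2 * (t₁ + t₂) + W.b₂ * (t₁ * t₂)) * (W.b₄ * (t₁ * t₂)
          + W.b₆ * ((t₁ + t₂) * (t₁ * t₂)) + W.b₈ * ((t₁ * t₂) * (t₁ * t₂))))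
        ≤ c * c ^ 2 := val_mul_le_mul v hA hB
      _ = c ^ 3 := by rw [← pow_succ']

/-- The parallelogram law for `t = 1/x` modulo `c ^ 3`. -/
theorem pt_add_sub_cube {c : Γ₀} (hc : c < 1) {P Q : W.Point} (hP : Good P) (hQ : Good Q)
    (h₁ : v (pt P) ≤ c) (h₂ : v (pt Q) ≤ c) :
    v (pt (P + Q) + pt (P - Q) - 2 * pt P - 2 * pt Q - W.b₂ * (pt P * pt Q)) ≤ c ^ 3 := by
  have hM := val_MPoly v hb₄ hb₆ hb₈ hc h₁ h₂
  have hM0 : MPoly W (pt P) (pt Q) ≠ 0 := by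
    intro h0; rw [h0, map_zero] at hM; exact zero_ne_one hM
  obtain ⟨-, -, hsum, -⟩ := pt_add_sub P Q hP hQ hM0
  have hS := val_SPoly_sub_cube v hb₂ hb₄ hb₆ hb₈ hc h₁ h₂
  have e : (pt (P + Q) + pt (P - Q) - 2 * pt P - 2 * pt Q - W.b₂ * (pt P * pt Q))
      * MPoly W (pt P) (pt Q) =
      SPoly W (pt P) (pt Q) - (2 * (pt P + pt Q) + W.b₂ * (pt P * pt Q))
        * MPoly W (pt P) (pt Q) := by
    rw [← hsum]; ring
  have := congrArg v e
  rw [map_mul, hM, mul_one] at this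
  rw [this]; exact hS

/-- Two-step induction: `t (j • P) ≡ j² t + β c_j t²` modulo `c³`, where `c = v (t P) < 1`. -/
theorem pt_nsmul_cube {β : K} (hβ : 4 * β = W.b₂) (hβv : v β ≤ 1) {P : W.Point} (hP : Good P)
    (hc : v (pt P) < 1) (j : ℕ) :
    (Good (j • P) ∧
      v (pt (j • P) - (j : K) ^ 2 * pt P - β * (cseq j : K) * pt P ^ 2) ≤ v (pt P) ^ 3) ∧
    (Good ((j + 1) • P) ∧
      v (pt ((j + 1) • P) - ((j + 1 : ℕ) : K) ^ 2 * pt P
        - β * (cseq (j + 1) : K) * pt P ^ 2) ≤ v (pt P) ^ 3) := by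
  induction j with
  | zero =>
    refine ⟨⟨?_, ?_⟩, ⟨?_, ?_⟩⟩
    · rw [zero_smul]; exact good_zero
    · simp [cseq]
    · rw [zero_add, one_smul]; exact hP
    · simp [cseq]
  | succ j ih =>
    obtain ⟨⟨hG0, hv0⟩, ⟨hG1, hv1⟩⟩ := ih
    refine ⟨⟨hG1, hv1⟩, ?_⟩
    set c := v (pt P) with hcdef
    set t := pt P with htdef
    have hc1 : c ≤ 1 := hc.le
    have hcc : c ^ 2 ≤ c := sq_le_self_of_le_one hc1
    have hc32 : c ^ 3 ≤ c ^ 2 := cube_le_of_le_one hc1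
    have ht2 : v (t ^ 2) ≤ c ^ 2 := by rw [map_pow]
    -- v (pt ((j+1) • P) - (j+1)² t) ≤ c²
    have hd1 : v (pt ((j + 1) • P) - ((j + 1 : ℕ) : K) ^ 2 * t) ≤ c ^ 2 := by
      have e : pt ((j + 1) • P) - ((j + 1 : ℕ) : K) ^ 2 * t =
          (pt ((j + 1) • P) - ((j + 1 : ℕ) : K) ^ 2 * t - β * (cseq (j + 1) : K) * t ^ 2)
          + β * (cseq (j + 1) : K) * t ^ 2 := by ring
      rw [e]
      refine v.map_add_le (hv1.trans hc32) ?_
      rw [mul_assoc]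
      exact val_le_mul v hβv (val_le_mul v (val_intCast_le v _) ht2)
    have hvj1 : v (pt ((j + 1) • P)) ≤ c := by
      have e : pt ((j + 1) • P) = (pt ((j + 1) • P) - ((j + 1 : ℕ) : K) ^ 2 * t)
          + ((j + 1 : ℕ) : K) ^ 2 * t := by ring
      rw [e]
      refine v.map_add_le (hd1.trans hcc) ?_
      refine val_le_mul v ?_ le_rfl
      rw [map_pow]
      exact pow_le_one' (val_natCast_le v (j + 1)) 2
    obtain ⟨hGa, -, -, -, -⟩ :=
      step v hb₂ hb₄ hb₆ hb₈ hc hG1 hP hvj1 (le_refl c)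
    have hpar := pt_add_sub_cube v hb₂ hb₄ hb₆ hb₈ hc hG1 hP hvj1 (le_refl c)
    have e1 : (j + 1) • P + P = (j + 1 + 1) • P := (succ_nsmul P (j + 1)).symm
    have e2 : (j + 1) • P - P = j • P := by
      rw [succ_nsmul]; abel
    rw [e1, e2] at hpar
    rw [e1] at hGa
    refine ⟨hGa, ?_⟩
    have hprod : v (W.b₂ * ((pt ((j + 1) • P) - ((j + 1 : ℕ) : K) ^ 2 * t) * t)) ≤ c ^ 3 := by
      refine val_le_mul v hb₂ ?_
      calc v ((pt ((j + 1) • P) - ((j + 1 : ℕ) : K) ^ 2 * t) * t) ≤ c ^ 2 * c :=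
            val_mul_le_mul v hd1 le_rfl
        _ = c ^ 3 := by rw [← pow_succ]
    have e : pt ((j + 1 + 1) • P) - ((j + 1 + 1 : ℕ) : K) ^ 2 * t
          - β * (cseq (j + 1 + 1) : K) * t ^ 2 =
        (pt ((j + 1 + 1) • P) + pt (j • P) - 2 * pt ((j + 1) • P) - 2 * t
            - W.b₂ * (pt ((j + 1) • P) * t))
        - (pt (j • P) - (j : K) ^ 2 * t - β * (cseq j : K) * t ^ 2)
        + 2 * (pt ((j + 1) • P) - ((j + 1 : ℕ) : K) ^ 2 * t - β * (cseq (j + 1) : K) * t ^ 2)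
        + W.b₂ * ((pt ((j + 1) • P) - ((j + 1 : ℕ) : K) ^ 2 * t) * t) := by
      rw [cseq_add_two, ← hβ]
      push_cast
      ring
    rw [e]
    refine v.map_add_le (v.map_add_le (v.map_sub_le hpar hv0) ?_) hprod
    exact val_le_mul v (val_two_le v) hv1

/-- **K1 (core)**: a nonzero `n`-torsion point in the kernel of reduction has `|n| ≤ |1/x|`,
as soon as `n ∣ c_n = n² (n² - 1) / 3` (for instance `n` an odd prime). -/
theorem val_natCast_le_val_pt {β : K} (hβ : 4 * β = W.b₂) (hβv : v β ≤ 1) {n : ℕ}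
    (hn : (n : ℤ) ∣ cseq n) {P : W.Point} (hP : InG1 v P) (hP0 : P ≠ 0) (hnP : n • P = 0) :
    v (n : K) ≤ v (pt P) := by
  by_contra hlt
  rw [not_le] at hlt
  rw [inG1_iff] at hP
  obtain ⟨hG, hc⟩ := hP
  have hx : px P ≠ 0 := hG.resolve_left hP0
  have ht : pt P ≠ 0 := inv_ne_zero hx
  have hc0 : v (pt P) ≠ 0 := (Valuation.ne_zero_iff v).mpr ht
  have hcpos : 0 < v (pt P) := zero_lt_iff.mpr hc0
  have hnpos : 0 < v (n : K) := lt_of_le_of_lt zero_le hlt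
  obtain ⟨⟨-, hv⟩, -⟩ := pt_nsmul_cube v hb₂ hb₄ hb₆ hb₈ hβ hβv hG hc n
  obtain ⟨k, hk⟩ := hn
  rw [hnP, pt_zero, zero_sub, hk] at hv
  set c := v (pt P) with hcdef
  set t := pt P with htdef
  -- the second-order term is smaller than the first-order term
  have h2 : v (β * (((n : ℤ) * k : ℤ) : K) * t ^ 2) < v ((n : K) ^ 2 * t) := by
    have e : β * (((n : ℤ) * k : ℤ) : K) * t ^ 2 = (β * (k : K)) * ((n : K) * t ^ 2) := by
      push_cast; ring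
    rw [e]
    have hβk : v (β * (k : K)) ≤ 1 := by
      have := val_le_mul v hβv (val_intCast_le v k)
      exact this
    refine lt_of_le_of_lt (val_le_mul v hβk le_rfl) ?_
    rw [map_mul, map_mul, map_pow, map_pow, ← hcdef]
    calc v (n : K) * c ^ 2 = (v (n : K) * c) * c := by rw [pow_two, mul_assoc]
      _ < (v (n : K) * c) * v (n : K) :=
          mul_lt_mul_of_pos_left hlt (mul_pos hnpos hcpos)
      _ = v (n : K) ^ 2 * c := by rw [pow_two]; ac_rfl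
  have h3 : v (-((n : K) ^ 2 * t) - β * (((n : ℤ) * k : ℤ) : K) * t ^ 2) = v ((n : K) ^ 2 * t) := by
    rw [sub_eq_add_neg]
    have : v (-(β * (((n : ℤ) * k : ℤ) : K) * t ^ 2)) < v (-((n : K) ^ 2 * t)) := by
      rwa [Valuation.map_neg, Valuation.map_neg]
    rw [Valuation.map_add_eq_of_lt_left v this, Valuation.map_neg]
  rw [h3, map_mul, map_pow, ← hcdef] at hv
  -- hv : v n ^ 2 * c ≤ c ^ 3
  have h4 : v (n : K) ^ 2 ≤ c ^ 2 := by
    have : v (n : K) ^ 2 * c ≤ c ^ 2 * c := by rwa [← pow_succ]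
    exact le_of_mul_le_mul_right this hcpos
  have h5 : v (n : K) ≤ c := le_of_pow_le_pow_left₀ (by norm_num) zero_le h4
  exact absurd hlt (not_lt.mpr h5)

end Core

end Val

end Fermat.Agent.EP
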