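import Mathlib
import Fermat.Prelude.Def_FLTPrelim_GaloisRep
import Fermat.Prelude.Def_FLTPrelim_Ramification
import Fermat.Agent.E.P.TorsG1
import Fermat.Agent.S13.LpBudget
import Fermat.Agent.S05.H5.Galois
import Fermat.Agent.Lib.MultRed.DecompQbar

/-!
# E-P, step K1: a rational point of odd prime order `p` is not in the kernel of reduction at `p`

`W / ℤ` any integral Weierstrass model, `p` an odd prime, `A ∣ p` a valuation subring of `Q̄`.
A nonzero `G_ℚ`-fixed point `P` of `E(Q̄)` with `p • P = 0` is not in the kernel of reduction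
at `A` (`not_inG1_of_fixed`).
-/

set_option autoImplicit false
set_option linter.unusedSectionVars false

open WeierstrassCurve WeierstrassCurve.Affine

namespace Fermat.Agent.EP

open S05H5 S05H65 S05H75

section General

variable {K : Type*} [Field K] {Γ₀ : Type*} [LinearOrderedCommGroupWithZero Γ₀]
  (v : Valuation K Γ₀) (W : Affine K)

variable (ha₁ : v W.a₁ ≤ 1) (ha₂ : v W.a₂ ≤ 1) (ha₃ : v W.a₃ ≤ 1) (ha₄ : v W.a₄ ≤ 1)
  (ha₆ : v W.a₆ ≤ 1)
include ha₁ ha₂ ha₃ ha₄ ha₆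

/-- on a point of the kernel of reduction `v x < v y` -/
lemma vx_lt_vy_of_int {x y : K} (h : W.Equation x y) (hx : 1 < v x) : v x < v y := by
  by_contra hy
  rw [not_lt] at hy
  rw [Affine.equation_iff] at h
  have e : x ^ 3 = y ^ 2 + W.a₁ * x * y + W.a₃ * y - W.a₂ * x ^ 2 - W.a₄ * x - W.a₆ := by
    linear_combination -h
  have hx1 : (1 : Γ₀) ≤ v x := hx.le
  have hxx : v x ≤ v x ^ 2 := by
    rw [pow_two]
    calc v x = 1 * v x := (one_mul _).symm
      _ ≤ v x * v x := mul_le_mul' hx1 le_rfl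
  have hx2 : (1 : Γ₀) ≤ v x ^ 2 := one_le_pow₀ hx.le
  have h1 : v (y ^ 2) ≤ v x ^ 2 := by
    rw [map_pow]; exact pow_le_pow_left₀ zero_le hy 2
  have h2 : v (W.a₁ * x * y) ≤ v x ^ 2 := by
    rw [map_mul, map_mul, pow_two]
    calc v W.a₁ * v x * v y ≤ 1 * v x * v x :=
          mul_le_mul' (mul_le_mul' ha₁ le_rfl) hy
      _ = v x * v x := by rw [one_mul]
  have h2' : v (W.a₃ * y) ≤ v x ^ 2 := by
    rw [map_mul]
    calc v W.a₃ * v y ≤ 1 * v x := mul_le_mul' ha₃ hy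
      _ = v x := one_mul _
      _ ≤ v x ^ 2 := hxx
  have h3 : v (W.a₂ * x ^ 2) ≤ v x ^ 2 := by
    rw [map_mul, map_pow]
    calc v W.a₂ * v x ^ 2 ≤ 1 * v x ^ 2 := mul_le_mul' ha₂ le_rfl
      _ = v x ^ 2 := one_mul _
  have h3' : v (W.a₄ * x) ≤ v x ^ 2 := by
    rw [map_mul]
    calc v W.a₄ * v x ≤ 1 * v x := mul_le_mul' ha₄ le_rfl
      _ = v x := one_mul _
      _ ≤ v x ^ 2 := hxx
  have h4 : v W.a₆ ≤ v x ^ 2 := le_trans ha₆ hx2
  have h5 : v (x ^ 3) ≤ v x ^ 2 := by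
    rw [e]
    exact Valuation.map_sub_le _ (Valuation.map_sub_le _ (Valuation.map_sub_le _
      (Valuation.map_add_le _ (Valuation.map_add_le _ h1 h2) h2') h3) h3') h4
  rw [map_pow] at h5
  exact absurd h5 (not_le.mpr (pow_lt_pow_right₀ hx (by norm_num)))

/-- on a point of the kernel of reduction `v y ^ 2 = v x ^ 3` -/
lemma vy_sq_of_int {x y : K} (h : W.Equation x y) (hx : 1 < v x) : v y ^ 2 = v x ^ 3 := by
  have hxy := vx_lt_vy_of_int v W ha₁ ha₂ ha₃ ha₄ ha₆ h hx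
  rw [Affine.equation_iff] at h
  have e : y * (y + (W.a₁ * x + W.a₃)) = x ^ 3 + (W.a₂ * x ^ 2 + W.a₄ * x + W.a₆) := by
    linear_combination h
  have hx1 : (1 : Γ₀) ≤ v x := hx.le
  have hxx : v x ≤ v x ^ 2 := by
    rw [pow_two]
    calc v x = 1 * v x := (one_mul _).symm
      _ ≤ v x * v x := mul_le_mul' hx1 le_rfl
  have hx2 : (1 : Γ₀) ≤ v x ^ 2 := one_le_pow₀ hx.le
  have h1 : v (W.a₁ * x + W.a₃) < v y := by
    refine lt_of_le_of_lt (Valuation.map_add_le _ ?_ (ha₃.trans hx1)) hxy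
    rw [map_mul]
    calc v W.a₁ * v x ≤ 1 * v x := mul_le_mul' ha₁ le_rfl
      _ = v x := one_mul _
  have h2 : v (y + (W.a₁ * x + W.a₃)) = v y := Valuation.map_add_eq_of_lt_left _ h1
  have h3 : v (W.a₂ * x ^ 2 + W.a₄ * x + W.a₆) < v (x ^ 3) := by
    rw [map_pow]
    refine lt_of_le_of_lt ?_ (pow_lt_pow_right₀ hx (by norm_num : 2 < 3))
    refine Valuation.map_add_le _ (Valuation.map_add_le _ ?_ ?_) (le_trans ha₆ hx2)
    · rw [map_mul, map_pow]
      calc v W.a₂ * v x ^ 2 ≤ 1 * v x ^ 2 := mul_le_mul' ha₂ le_rfl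
        _ = v x ^ 2 := one_mul _
    · rw [map_mul]
      calc v W.a₄ * v x ≤ 1 * v x := mul_le_mul' ha₄ le_rfl
        _ = v x := one_mul _
        _ ≤ v x ^ 2 := hxx
  have h4 : v (x ^ 3 + (W.a₂ * x ^ 2 + W.a₄ * x + W.a₆)) = v (x ^ 3) :=
    Valuation.map_add_eq_of_lt_left _ h3
  have := congrArg v e
  rw [map_mul, h2, h4, map_pow] at this
  rw [pow_two]
  exact this

/-- a rational point of the kernel of reduction has `|1/x| ≤ |p|²` -/
theorem val_inv_le_sq_of_rat [CharZero K] {p : ℕ} (hp : p.Prime) (hvp : v (p : K) < 1)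
    {x y : K} (h : W.Equation x y) (hx : 1 < v x) (rx ry : ℚ) (hrx : (rx : K) = x)
    (hry : (ry : K) = y) : v x⁻¹ ≤ v (p : K) ^ 2 := by
  have hxy := vx_lt_vy_of_int v W ha₁ ha₂ ha₃ ha₄ ha₆ h hx
  have hsq := vy_sq_of_int v W ha₁ ha₂ ha₃ ha₄ ha₆ h hx
  have hx0 : x ≠ 0 := by
    intro h0; rw [h0, map_zero] at hx; exact not_lt.mpr zero_le hx
  have hy0 : y ≠ 0 := by
    intro h0; rw [h0, map_zero] at hxy; exact not_lt.mpr zero_le hxy
  have hrx0 : rx ≠ 0 := by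
    rintro rfl; apply hx0; rw [← hrx]; simp
  have hry0 : ry ≠ 0 := by
    rintro rfl; apply hy0; rw [← hry]; simp
  obtain ⟨k, hk⟩ := Fermat.Agent.S13Budget.v_ratCast_eq_zpow v hp hvp hrx0
  obtain ⟨m, hm⟩ := Fermat.Agent.S13Budget.v_ratCast_eq_zpow v hp hvp hry0
  rw [hrx] at hk
  rw [hry] at hm
  have hp0 : v (p : K) ≠ 0 := by
    rw [Valuation.ne_zero_iff]
    exact_mod_cast hp.ne_zero
  have hppos : 0 < v (p : K) := zero_lt_iff.mpr hp0
  -- 2 m = 3 k
  have h23 : 2 * m = 3 * k := by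
    have h1 : v (p : K) ^ (m * 2) = v (p : K) ^ (k * 3) := by
      rw [zpow_mul, zpow_mul, ← hk, ← hm]
      exact_mod_cast hsq
    have := zpow_right_injective₀ hppos (ne_of_lt hvp) h1
    omega
  -- k < 0
  have hkneg : k < 0 := by
    by_contra hk0
    rw [not_lt] at hk0
    obtain ⟨j, rfl⟩ := Int.eq_ofNat_of_zero_le hk0
    rw [zpow_natCast] at hk
    rw [hk] at hx
    exact absurd hx (not_lt.mpr (pow_le_one' hvp.le j))
  obtain ⟨j, hj⟩ : ∃ j : ℕ, (j : ℤ) = -k := ⟨(-k).toNat, by omega⟩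
  have hj2 : 2 ≤ j := by omega
  rw [map_inv₀, hk, ← zpow_neg, ← hj, zpow_natCast]
  exact pow_le_pow_right_of_le_one' hvp.le hj2

end General

section Qbar

/-- An element of `ℚ̄` fixed by the whole Galois group is rational. -/
theorem exists_ratCast_of_fixed (x : AlgebraicClosure ℚ)
    (hx : ∀ σ : AlgebraicClosure ℚ ≃ₐ[ℚ] AlgebraicClosure ℚ, σ x = x) :
    ∃ r : ℚ, (r : AlgebraicClosure ℚ) = x := by
  have h1 : Algebra.IsAlgebraic ℚ (AlgebraicClosure ℚ) := AlgebraicClosure.isAlgebraic ℚ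
  have h2 : IsAlgClosure ℚ (AlgebraicClosure ℚ) := ⟨inferInstance, h1⟩
  have h3 : IsGalois ℚ (AlgebraicClosure ℚ) := IsAlgClosure.isGalois ℚ (AlgebraicClosure ℚ)
  obtain ⟨r, hr⟩ :=
    (InfiniteGalois.mem_range_algebraMap_iff_fixed (k := ℚ) (K := AlgebraicClosure ℚ) x).mpr hx
  exact ⟨r, by rw [← hr]; simp⟩

variable (W : WeierstrassCurve ℤ) {p : ℕ} [Fact p.Prime] [DecidableEq (AlgebraicClosure ℚ)]
  (A : ValuationSubring (AlgebraicClosure ℚ)) (hA : A.LiesOverPrime p)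

include hA

/-- **K1**: a nonzero rational point of odd prime order `p` is not in the kernel of reduction
at a place over `p`. -/
theorem not_inG1_of_fixed (hp2 : p ≠ 2)
    {P : ((W.map (Int.castRingHom ℚ))⁄(AlgebraicClosure ℚ)).Point} (hP0 : P ≠ 0)
    (hpP : p • P = 0)
    (hfix : ∀ σ : AlgebraicClosure ℚ ≃ₐ[ℚ] AlgebraicClosure ℚ, σ • P = P) :
    ¬ InG1 A.valuation P := by
  intro hG
  have hp : p.Prime := Fact.out
  have hvp : A.valuation ((p : ℕ) : AlgebraicClosure ℚ) < 1 := A.mem_nonunits_iff.mp hA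
  have hint := Fermat.Agent.MultRed.intCoeff_map_int W A
  have ha₁ := (A.valuation_le_one_iff _).mpr hint.mem_a₁
  have ha₂ := (A.valuation_le_one_iff _).mpr hint.mem_a₂
  have ha₃ := (A.valuation_le_one_iff _).mpr hint.mem_a₃
  have ha₄ := (A.valuation_le_one_iff _).mpr hint.mem_a₄
  have ha₆ := (A.valuation_le_one_iff _).mpr hint.mem_a₆
  obtain ⟨hb₂, hb₄, hb₆, hb₈⟩ := v_b_le_one A.valuation
    ((W.map (Int.castRingHom ℚ))⁄(AlgebraicClosure ℚ)).toAffine ha₁ ha₂ ha₃ ha₄ ha₆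
  -- `4` is a unit
  have h4 : A.valuation ((4 : ℕ) : AlgebraicClosure ℚ) = 1 := by
    apply v_natCast_eq_one A.valuation hp hvp
    intro hdvd
    have h2 : p ∣ 2 := by
      have : p ∣ 2 * 2 := by simpa using hdvd
      rcases hp.dvd_mul.mp this with h | h <;> exact h
    exact hp2 ((Nat.prime_dvd_prime_iff_eq hp Nat.prime_two).mp h2)
  have h40 : (4 : AlgebraicClosure ℚ) ≠ 0 := by norm_num
  set E := ((W.map (Int.castRingHom ℚ))⁄(AlgebraicClosure ℚ)).toAffine with hE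
  have hβ : 4 * (E.b₂ / 4) = E.b₂ := by field_simp
  have hβv : A.valuation (E.b₂ / 4) ≤ 1 := by
    rw [map_div₀]
    have : A.valuation (4 : AlgebraicClosure ℚ) = 1 := by exact_mod_cast h4
    rw [this, div_one]
    exact hb₂
  have key := val_natCast_le_val_pt A.valuation hb₂ hb₄ hb₆ hb₈ hβ hβv
    (dvd_cseq_of_prime hp hp2) hG hP0 hpP
  rcases P with _ | ⟨x, y, hxy⟩
  · exact hP0 rfl
  · have hx : 1 < A.valuation x := by
      rcases hG with h | h
      · exact absurd h hP0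
      · exact h
    have hσ : ∀ σ : AlgebraicClosure ℚ ≃ₐ[ℚ] AlgebraicClosure ℚ, σ x = x ∧ σ y = y := by
      intro σ
      have h1 := hfix σ
      rw [Point.algEquiv_smul_def, Point.map_some] at h1
      simpa using h1
    obtain ⟨rx, hrx⟩ := exists_ratCast_of_fixed x (fun σ => (hσ σ).1)
    obtain ⟨ry, hry⟩ := exists_ratCast_of_fixed y (fun σ => (hσ σ).2)
    have h2 := val_inv_le_sq_of_rat A.valuation E ha₁ ha₂ ha₃ ha₄ ha₆ hp hvp hxy.1 hx rx ry
      hrx hry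
    have h3 : A.valuation ((p : ℕ) : AlgebraicClosure ℚ) ≤
        A.valuation ((p : ℕ) : AlgebraicClosure ℚ) ^ 2 := by
      refine le_trans key ?_
      simpa [pt, px] using h2
    have hp0 : A.valuation ((p : ℕ) : AlgebraicClosure ℚ) ≠ 0 := by
      rw [Valuation.ne_zero_iff]
      exact_mod_cast hp.ne_zero
    have h5 : A.valuation ((p : ℕ) : AlgebraicClosure ℚ) ^ 2 <
        A.valuation ((p : ℕ) : AlgebraicClosure ℚ) := by
      rw [pow_two]
      calc A.valuation ((p : ℕ) : AlgebraicClosure ℚ) * A.valuation ((p : ℕ) : AlgebraicClosure ℚ)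
          < 1 * A.valuation ((p : ℕ) : AlgebraicClosure ℚ) :=
            mul_lt_mul_of_pos_right hvp (zero_lt_iff.mpr hp0)
        _ = _ := one_mul _
    exact absurd h3 (not_le.mpr h5)

end Qbar

end Fermat.Agent.EP
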