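import Mathlib
import Fermat.Agent.E.P.Rational
import Fermat.Agent.E.P.Inertia
import Fermat.Agent.Lib.FrobTrace.DetCycloEll
import Fermat.Agent.Lib.MultRed.InertiaCyclo
import Fermat.Agent.Lib.Torsion.Card
import Fermat.Agent.S13.AtPCore

/-!
# E-P: local splitting at `p` of `(E[p], C)` for a line `C` of rational points

`W / ℤ` with `Δ ≠ 0` and good or multiplicative reduction at the odd prime `p`;
`V = E[p](Q̄)`, `C ⊂ V` a `ZMod p`-line of `G_ℚ`-fixed points, `A ∣ p` a valuation subring of `Q̄`.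
Then the kernel of reduction `C' = E₁[p]` (`kerRedTors W A`) is a complement of `C` stable under
the decomposition group of `A` (`exists_decomp_stable_compl`): this is the field `locally_split`
of `ExtCitation.IsAdmissibleExtension`.
-/

set_option autoImplicit false
set_option linter.unusedSectionVars false

open WeierstrassCurve WeierstrassCurve.Affine WeierstrassCurve.Affine.Point

namespace Fermat.Agent.EP

open S05H5 S05H65 S05H75 Fermat.Agent.MultRed

variable (W : WeierstrassCurve ℤ) {p : ℕ} [Fact p.Prime] [DecidableEq (AlgebraicClosure ℚ)]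
  (A : ValuationSubring (AlgebraicClosure ℚ))

/-- The points of `E[p]` in the kernel of reduction at `A`, as an additive subgroup. -/
noncomputable def kerRedAddSubgroup (p : ℕ) :
    AddSubgroup (Submodule.torsionBy ℤ
      ((W.map (Int.castRingHom ℚ))⁄(AlgebraicClosure ℚ)).Point p) where
  carrier := {x | InG1 A.valuation (x : ((W.map (Int.castRingHom ℚ))⁄(AlgebraicClosure ℚ)).Point)}
  zero_mem' := Or.inl rfl
  add_mem' := by
    intro x y hx hy
    have hint := intCoeff_map_int W A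
    obtain ⟨hb₂, hb₄, hb₆, hb₈⟩ := v_b_le_one A.valuation
      ((W.map (Int.castRingHom ℚ))⁄(AlgebraicClosure ℚ)).toAffine
      ((A.valuation_le_one_iff _).mpr hint.mem_a₁) ((A.valuation_le_one_iff _).mpr hint.mem_a₂)
      ((A.valuation_le_one_iff _).mpr hint.mem_a₃) ((A.valuation_le_one_iff _).mpr hint.mem_a₄)
      ((A.valuation_le_one_iff _).mpr hint.mem_a₆)
    exact inG1_add A.valuation hb₂ hb₄ hb₆ hb₈ hx hy
  neg_mem' := by
    intro x hx
    exact inG1_neg A.valuation hx

/-- The points of `E[p]` in the kernel of reduction at `A`, as a `ZMod p`-submodule. -/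
noncomputable def kerRedTors (p : ℕ) :
    Submodule (ZMod p) (Submodule.torsionBy ℤ
      ((W.map (Int.castRingHom ℚ))⁄(AlgebraicClosure ℚ)).Point p) :=
  AddSubgroup.toZModSubmodule p (kerRedAddSubgroup W A p)

theorem mem_kerRedTors (p : ℕ)
    (x : Submodule.torsionBy ℤ ((W.map (Int.castRingHom ℚ))⁄(AlgebraicClosure ℚ)).Point p) :
    x ∈ kerRedTors W A p ↔
      InG1 A.valuation (x : ((W.map (Int.castRingHom ℚ))⁄(AlgebraicClosure ℚ)).Point) :=
  Iff.rfl

/-- the kernel of reduction is stable under the decomposition group -/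
theorem kerRedTors_decomp_stable (p : ℕ) (σ : AlgebraicClosure ℚ ≃ₐ[ℚ] AlgebraicClosure ℚ)
    (hσ : σ ∈ A.decompositionSubgroup ℚ)
    (x : Submodule.torsionBy ℤ ((W.map (Int.castRingHom ℚ))⁄(AlgebraicClosure ℚ)).Point p)
    (hx : x ∈ kerRedTors W A p) : σ • x ∈ kerRedTors W A p := by
  rw [mem_kerRedTors] at hx ⊢
  have : Algebra.IsAlgebraic ℚ (AlgebraicClosure ℚ) := AlgebraicClosure.isAlgebraic ℚ
  have hσv : ∀ a : AlgebraicClosure ℚ, A.valuation (σ a) = A.valuation a :=
    fun a => Fermat.Agent.S13Two.decomp_val_eq A σ hσ a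
  show InG1 A.valuation
    (σ • (x : ((W.map (Int.castRingHom ℚ))⁄(AlgebraicClosure ℚ)).Point))
  rcases hX : (x : ((W.map (Int.castRingHom ℚ))⁄(AlgebraicClosure ℚ)).Point) with _ | ⟨a, b, h⟩
  · left
    exact smul_zero (A := ((W.map (Int.castRingHom ℚ))⁄(AlgebraicClosure ℚ)).Point) σ
  · rw [hX] at hx
    right
    have hmap : σ • (Point.some a b h :
        ((W.map (Int.castRingHom ℚ))⁄(AlgebraicClosure ℚ)).Point)
        = Point.some (σ a) (σ b)
          ((Affine.baseChange_nonsingular (W.map (Int.castRingHom ℚ)).toAffine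
            σ.toAlgHom.injective a b).mpr h) :=
      Point.map_some σ.toAlgHom h
    rw [hmap]
    show 1 < A.valuation (σ a)
    rw [hσv]
    rcases hx with h0 | h1
    · exact absurd h0 (Point.some_ne_zero h)
    · exact h1

section Main

variable (hp2 : p ≠ 2) (hΔ : W.Δ ≠ 0) (hss : (p : ℤ) ∣ W.Δ → ¬ (p : ℤ) ∣ W.c₄)
  (hA : A.LiesOverPrime p)

include hΔ in
theorem card_torsion_eq_sq :
    Nat.card (Submodule.torsionBy ℤ
      ((W.map (Int.castRingHom ℚ))⁄(AlgebraicClosure ℚ)).Point p) = p ^ 2 := by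
  have hp : p.Prime := Fact.out
  have hΔ' : ((W.map (Int.castRingHom ℚ))⁄(AlgebraicClosure ℚ)).Δ ≠ 0 := by
    change ((W.map (Int.castRingHom ℚ)).map (algebraMap ℚ (AlgebraicClosure ℚ))).Δ ≠ 0
    rw [WeierstrassCurve.map_Δ, WeierstrassCurve.map_Δ]
    simpa using hΔ
  exact Fermat.Agent.Torsion.card_torsionBy hΔ' hp.one_le

include hp2 hΔ hss hA in
/-- **K2**: the kernel of reduction contains a nonzero point of order `p`. -/
theorem kerRedTors_ne_bot : kerRedTors W A p ≠ ⊥ := by
  have hp : p.Prime := Fact.out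
  intro hbot
  obtain ⟨σ₀, hσ₀, hinv⟩ := Fermat.Agent.S59.SOArith.exists_inertia_inv_on_roots p A hA
  -- `σ₀` acts trivially on `E[p]`
  have htriv : ∀ x : Submodule.torsionBy ℤ
      ((W.map (Int.castRingHom ℚ))⁄(AlgebraicClosure ℚ)).Point p, σ₀ • x = x := by
    intro x
    have hX : p • (x : ((W.map (Int.castRingHom ℚ))⁄(AlgebraicClosure ℚ)).Point) = 0 := by
      have h1 : ((p : ℕ) : ℤ) • (x : ((W.map (Int.castRingHom ℚ))⁄(AlgebraicClosure ℚ)).Point) = 0 :=
        (Submodule.mem_torsionBy_iff _ _).mp x.2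
      rwa [natCast_zsmul] at h1
    have h2 : σ₀ • x - x ∈ kerRedTors W A p := by
      rw [mem_kerRedTors]
      exact inertia_sub_inG1 W A hA hp2 hss σ₀ hσ₀ x.1 hX
    rw [hbot, Submodule.mem_bot] at h2
    exact sub_eq_zero.mp h2
  have hdet1 : LinearMap.det (galoisRepModuleEnd ℚ (K := AlgebraicClosure ℚ)
      (W.map (Int.castRingHom ℚ)) p σ₀) = 1 := by
    have : galoisRepModuleEnd ℚ (K := AlgebraicClosure ℚ) (W.map (Int.castRingHom ℚ)) p σ₀
        = LinearMap.id := by
      ext x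
      simp [htriv x]
    rw [this, LinearMap.det_id]
  have ha : ∀ μ : AlgebraicClosure ℚ, μ ^ p ^ 1 = 1 → σ₀ μ = μ ^ (p - 1) := by
    intro μ hμ
    rw [pow_one] at hμ
    rw [hinv μ hμ]
    apply inv_eq_of_mul_eq_one_left
    rw [← pow_succ, Nat.sub_add_cancel hp.one_le]
    exact hμ
  have key := Fermat.Agent.FrobTrace.galois_det_eq_natCast W hΔ (p := p) 1 σ₀ (p - 1) ha
  have hdet2 : ∀ n : ℕ, p ^ 1 = n →
      LinearMap.det (galoisRepModuleEnd ℚ (K := AlgebraicClosure ℚ)
        (W.map (Int.castRingHom ℚ)) (p ^ 1) σ₀) = ((p - 1 : ℕ) : ZMod (p ^ 1)) →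
      LinearMap.det (galoisRepModuleEnd ℚ (K := AlgebraicClosure ℚ)
        (W.map (Int.castRingHom ℚ)) n σ₀) = ((p - 1 : ℕ) : ZMod n) := by
    intro n hn h
    subst hn
    exact h
  have h3 := hdet2 p (pow_one p) key
  rw [hdet1] at h3
  -- `1 = p - 1` in `ZMod p` forces `p ∣ 2`
  have h4 : ((2 : ℕ) : ZMod p) = 0 := by
    have h5 : ((p - 1 : ℕ) : ZMod p) = -1 := by
      rw [Nat.cast_sub hp.one_le]
      simp
    rw [h5] at h3
    have : (1 : ZMod p) + 1 = 0 := by
      nth_rewrite 1 [h3]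
      exact neg_add_cancel 1
    push_cast
    rw [← this]
    norm_num
  rw [ZMod.natCast_eq_zero_iff] at h4
  exact hp2 ((Nat.prime_dvd_prime_iff_eq hp Nat.prime_two).mp h4)

include hp2 hΔ hss hA in
/-- **E-P**: local splitting at `p`.  The kernel of reduction in `E[p]` is a complement,
stable under the decomposition group at `A ∣ p`, of any line `C` of rational points. -/
theorem isCompl_kerRedTors
    (C : Submodule (ZMod p) (Submodule.torsionBy ℤ
      ((W.map (Int.castRingHom ℚ))⁄(AlgebraicClosure ℚ)).Point p))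
    (hCcard : Nat.card C = p)
    (hCfix : ∀ σ : AlgebraicClosure ℚ ≃ₐ[ℚ] AlgebraicClosure ℚ, ∀ x ∈ C, σ • x = x) :
    IsCompl C (kerRedTors W A p) := by
  have hp : p.Prime := Fact.out
  have hcard := card_torsion_eq_sq W (p := p) hΔ
  have hfin : Finite (Submodule.torsionBy ℤ
      ((W.map (Int.castRingHom ℚ))⁄(AlgebraicClosure ℚ)).Point p) :=
    Nat.finite_of_card_ne_zero (by rw [hcard]; exact pow_ne_zero _ hp.ne_zero)
  have hfd : FiniteDimensional (ZMod p) (Submodule.torsionBy ℤ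
      ((W.map (Int.castRingHom ℚ))⁄(AlgebraicClosure ℚ)).Point p) := Module.Finite.of_finite
  have hrank := Fermat.Agent.S13AtP.finrank_eq_two_of_card hcard
  -- `C` is a line
  have hC1 : Module.finrank (ZMod p) C = 1 := by
    have h := Module.natCard_eq_pow_finrank (K := ZMod p) (V := C)
    rw [Nat.card_zmod, hCcard] at h
    have h' : p ^ 1 = p ^ Module.finrank (ZMod p) C := by rw [pow_one]; exact h
    exact (Nat.pow_right_injective hp.two_le h').symm
  -- `C ∩ E₁[p] = 0`
  have hdisj : C ⊓ kerRedTors W A p = ⊥ := by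
    rw [Submodule.eq_bot_iff]
    rintro x ⟨hxC, hxL⟩
    by_contra hx0
    have hX : p • (x : ((W.map (Int.castRingHom ℚ))⁄(AlgebraicClosure ℚ)).Point) = 0 := by
      have h1 : ((p : ℕ) : ℤ) • (x : ((W.map (Int.castRingHom ℚ))⁄(AlgebraicClosure ℚ)).Point) = 0 :=
        (Submodule.mem_torsionBy_iff _ _).mp x.2
      rwa [natCast_zsmul] at h1
    have hx0' : (x : ((W.map (Int.castRingHom ℚ))⁄(AlgebraicClosure ℚ)).Point) ≠ 0 :=
      fun h => hx0 (Subtype.ext h)
    have hfix : ∀ σ : AlgebraicClosure ℚ ≃ₐ[ℚ] AlgebraicClosure ℚ,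
        σ • (x : ((W.map (Int.castRingHom ℚ))⁄(AlgebraicClosure ℚ)).Point) = x :=
      fun σ => congrArg Subtype.val (hCfix σ x hxC)
    exact not_inG1_of_fixed W A hA hp2 hx0' hX hfix ((mem_kerRedTors W A p x).mp hxL)
  have hL := kerRedTors_ne_bot W A hp2 hΔ hss hA
  have hL1 : 1 ≤ Module.finrank (ZMod p) (kerRedTors W A p) := by
    rw [Nat.one_le_iff_ne_zero]
    intro h0
    exact hL (Submodule.finrank_eq_zero.mp h0)
  have hsum := Submodule.finrank_sup_add_finrank_inf_eq C (kerRedTors W A p)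
  rw [hdisj, finrank_bot, add_zero, hC1] at hsum
  have hle : Module.finrank (ZMod p) ↥(C ⊔ kerRedTors W A p) ≤ 2 := by
    rw [← hrank]
    exact Submodule.finrank_le _
  have htop : C ⊔ kerRedTors W A p = ⊤ := by
    apply Submodule.eq_top_of_finrank_eq
    rw [hrank]
    omega
  exact ⟨disjoint_iff.mpr hdisj, codisjoint_iff.mpr htop⟩

include hp2 hΔ hss hA in
/-- **E-P**, in the shape of the field `locally_split` of `ExtCitation.IsAdmissibleExtension`. -/
theorem exists_decomp_stable_compl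
    (C : Submodule (ZMod p) (Submodule.torsionBy ℤ
      ((W.map (Int.castRingHom ℚ))⁄(AlgebraicClosure ℚ)).Point p))
    (hCcard : Nat.card C = p)
    (hCfix : ∀ σ : AlgebraicClosure ℚ ≃ₐ[ℚ] AlgebraicClosure ℚ, ∀ x ∈ C, σ • x = x) :
    ∃ C' : Submodule (ZMod p) (Submodule.torsionBy ℤ
        ((W.map (Int.castRingHom ℚ))⁄(AlgebraicClosure ℚ)).Point p),
      (∀ σ ∈ A.decompositionSubgroup ℚ, ∀ x ∈ C', σ • x ∈ C') ∧ IsCompl C C' :=
  ⟨kerRedTors W A p, fun σ hσ x hx => kerRedTors_decomp_stable W A p σ hσ x hx,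
    isCompl_kerRedTors W A hp2 hΔ hss hA C hCcard hCfix⟩

end Main

end Fermat.Agent.EP
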